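import Mathlib
import Fermat.Agent.IntStruct.FixedField

/-!
# S48 / K-4a : finitely many algebraic integers with a small bounded `Aut ℂ`-orbit
[key S48/K-4a, ~250 lines; Mathlib + `IntStruct.exists_rat_of_forall_ringHom_eq`]

`x` integral over `ℤ`, `O` a finite set containing `x`, stable under `Aut ℂ`, `|O| ≤ d`, all elements of norm `≤ R`.
Let `O' = {y ∈ O | ∃ s, y = s x}` (the orbit; finite, stable, all elements integral).  `P = ∏_{y ∈ O'} (X - y) ∈ ℂ[X]` is fixed by every `s` (it permutes `O'`: injective self-map of a finite set), so its coefficients are rational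
(`IntStruct.exists_rat_of_forall_ringHom_eq` wants ring homs `ℂ →+* ℂ`: a ring hom `σ` maps `O'`… use instead the version you can prove: coefficients fixed by all `ℂ ≃ₐ[ℚ] ℂ`; `exists_ringEquiv_ne` in the same file gives a ring EQUIV moving any irrational number; a ring equiv of `ℂ` is a `ℚ`-algebra equiv),
and integral (sums of products of integral elements), hence integers (`IsIntegrallyClosed ℤ`, `IsIntegral.exists_int…`/`IsIntegrallyClosed.isIntegral_iff`).  `natDegree P ≤ d`, `|coeff| ≤ (d.choose i) * max R 1 ^ d` (`Polynomial.coeff_bdd_of_roots_le` or by hand).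
So `x` is a root of one of finitely many integer polynomials: `Polynomial.bUnion_roots_finite (Int.castRingHom ℂ) d (Set.finite_Icc (-B) B)` exactly as in Mathlib's `NumberField.Embeddings.finite_of_norm_le`.
-/

set_option autoImplicit false

namespace Fermat.Agent.S48

open Polynomial

/-- the roots of the minimal polynomial are conjugate under `Aut ℂ` -/
theorem smallAux_exists_conj (x x' : ℂ) (hint : IsIntegral ℚ x)
    (hx'root : aeval x' (minpoly ℚ x) = 0) : ∃ s : ℂ ≃ₐ[ℚ] ℂ, s x = x' := by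
  have hirr : Irreducible (minpoly ℚ x) := minpoly.irreducible hint
  have hinj : ∀ f : AdjoinRoot (minpoly ℚ x) →+* ℂ, Function.Injective f := by
    intro f
    haveI : Fact (Irreducible (minpoly ℚ x)) := ⟨hirr⟩
    exact RingHom.injective f
  have hnt : Nontrivial (AdjoinRoot (minpoly ℚ x)) := AdjoinRoot.nontrivial _ hirr.degree_pos.ne'
  have hcount : Countable (AdjoinRoot (minpoly ℚ x)) :=
    haveI := IntStruct.FixedField.countable_ratPolynomial
    (AdjoinRoot.mk_surjective (g := minpoly ℚ x)).countable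
  obtain ⟨σ, hσ⟩ := IntStruct.FixedField.exists_ringEquiv_extending
    (R := AdjoinRoot (minpoly ℚ x)) (K := ℂ) (L := ℂ)
    (AdjoinRoot.lift (algebraMap ℚ ℂ) x (minpoly.aeval ℚ x))
    (AdjoinRoot.lift (algebraMap ℚ ℂ) x' hx'root)
    (hinj _) (hinj _)
    (Cardinal.mk_le_aleph0) (by rw [Cardinal.mk_complex]; exact Cardinal.aleph0_lt_continuum) rfl
  refine ⟨AlgEquiv.ofRingEquiv (f := σ) (fun r => by simp), ?_⟩
  have e1 : AdjoinRoot.lift (algebraMap ℚ ℂ) x (minpoly.aeval ℚ x) (AdjoinRoot.root _) = x :=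
    AdjoinRoot.lift_root _
  have e2 : AdjoinRoot.lift (algebraMap ℚ ℂ) x' hx'root (AdjoinRoot.root _) = x' :=
    AdjoinRoot.lift_root _
  exact ((congrArg σ e1).symm.trans (hσ (AdjoinRoot.root _))).trans e2

theorem finite_small (d : ℕ) (R : ℝ) :
    {x : ℂ | IsIntegral ℤ x ∧ ∃ O : Finset ℂ, O.card ≤ d ∧ x ∈ O ∧
      (∀ s : ℂ ≃ₐ[ℚ] ℂ, ∀ y ∈ O, s y ∈ O) ∧ ∀ y ∈ O, ‖y‖ ≤ R}.Finite := by
  classical
  let C := Nat.ceil (max R 1 ^ d * d.choose (d / 2))
  have := bUnion_roots_finite (algebraMap ℤ ℂ) d (Set.finite_Icc (-C : ℤ) C)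
  refine this.subset ?_
  rintro x ⟨hx, O, hOd, hxO, hOs, hOR⟩
  simp_rw [Set.mem_iUnion]
  have hintQ : IsIntegral ℚ x := hx.tower_top
  have hmapQ := minpoly.isIntegrallyClosed_eq_field_fractions' ℚ hx
  have hmapC : (minpoly ℤ x).map (algebraMap ℤ ℂ) = (minpoly ℚ x).map (algebraMap ℚ ℂ) := by
    rw [hmapQ, Polynomial.map_map]
    congr 1
  have hmonic : (minpoly ℤ x).Monic := minpoly.monic hx
  have hroots : ∀ z ∈ ((minpoly ℤ x).map (algebraMap ℤ ℂ)).roots, z ∈ O := by
    intro z hz
    rw [hmapC] at hz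
    have h1 : aeval z (minpoly ℚ x) = 0 := by
      have := (mem_roots'.1 hz).2
      rwa [IsRoot, eval_map_algebraMap] at this
    obtain ⟨s, rfl⟩ := smallAux_exists_conj x z hintQ h1
    exact hOs s x hxO
  have hsplit : Splits ((minpoly ℤ x).map (algebraMap ℤ ℂ)) := IsAlgClosed.splits _
  have hdeg : (minpoly ℤ x).natDegree ≤ d := by
    have h1 : ((minpoly ℤ x).map (algebraMap ℤ ℂ)).natDegree = (minpoly ℤ x).natDegree :=
      hmonic.natDegree_map _
    have h2 := splits_iff_card_roots.1 hsplit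
    have h3 : ((minpoly ℤ x).map (algebraMap ℤ ℂ)).roots.Nodup := by
      rw [hmapC]
      exact nodup_roots ((minpoly.irreducible hintQ).separable.map)
    rw [← h1, ← h2, ← Multiset.toFinset_card_of_nodup h3]
    refine le_trans (Finset.card_le_card ?_) hOd
    intro z hz
    exact hroots z (Multiset.mem_toFinset.1 hz)
  refine ⟨minpoly ℤ x, ⟨hdeg, fun i => ?_⟩, ?_⟩
  · rw [Set.mem_Icc, ← abs_le, ← @Int.cast_le ℝ]
    have h1 := coeff_bdd_of_roots_le (algebraMap ℤ ℂ) hmonic hsplit hdeg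
      (fun z hz => hOR z (hroots z hz)) i
    refine (Eq.trans_le ?_ h1).trans (Nat.le_ceil _)
    rw [coeff_map, eq_intCast, Complex.norm_intCast, Int.cast_abs]
  · simp only [Finset.mem_coe, Multiset.mem_toFinset]
    rw [mem_roots (hmonic.map _).ne_zero, IsRoot, eval_map_algebraMap]
    exact minpoly.aeval ℤ x

end Fermat.Agent.S48
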