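import Fermat.Agent.S48.K.Systems
import Fermat.Agent.S48.K.Small
import Fermat.Agent.S48.R.Parseval
import Fermat.Agent.S48.R.Rankin

/-!
# S48 / K-4 : the interfaces (I2) and (I3)
[key S48/K-4b `ub_conj` (~200 lines), key S48/K-4c `exists_Y` (~350 lines); from the stubs]

`ub_conj` : for `s ∈ Aut ℂ` let `f'`, `χ'` be as in `exists_conj_one` (`m = 12 φ(N)`); `hasSum_qExpansion` (`IsQ f'`) gives the `HasSum` hypothesis of `sum_sq_le` (rewrite `𝕢 1 z ^ n = exp(2πi n z)`), `exists_bound_one` the bound;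
 `rankin N (s ∘ a) (s ∘ e)`: `HeckeRel` is preserved by the ring hom `s` (`map_add, map_mul, apply_ite`), `‖s (ε p)‖ = 1` because `s (ε p)` is a root of unity (`(ε p)^φ(N) = 1`).
`ub_id` : `s = 1`.
`exists_Y` : `B` = the finite set of `finite_systems`, `d = |B|`, `c = d / η`, `R = √c`, `Y` = the finite set `finite_small d R` (as a `Finset`).  For a prime `p ∤ N`: `O_p = {b p : b ∈ B}` is finite, `|O_p| ≤ d`, contains `a p`, stable under `Aut ℂ`
 (`s' (s (a p)) = (s' s)(a p)`).  If `a p ∉ Y` then (as `a p` is integral) some `b ∈ B` has `‖b p‖² > c`, so `1 ≤ c⁻¹ ∑_{b∈B} ‖b p‖²`.  Sum over `p ∈ F`: `≤ c⁻¹ ∑_b (Lam s + C_b) = η Lam s + C`  (each `b = resP N (s ∘ a)`, `ub_conj`; `Lam s` may be negative? no: `1 < s < 2` gives `Lam s > 0`; not even needed).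
-/

set_option autoImplicit false

open UpperHalfPlane ModularForm ModularFormClass ModularCurve CongruenceSubgroup Fermat.Agent.S24 Fermat.Agent.S29
open scoped MatrixGroups Manifold

noncomputable section

namespace Fermat.Agent.S48

variable {N : ℕ} [NeZero N] (ε : DirichletCharacter ℂ N) {f : ℍ → ℂ}

theorem ub_conj (hf : IsNebC N 1 (etaOf ε) f) (h1 : coeffFun f 1 = 1)
    (hT : HeckeRel N (coeffFun f) (fun p => ε (p : ZMod N))) (s : ℂ ≃ₐ[ℚ] ℂ) :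
    UB (fun p => if p ∣ N then 0 else ‖s (coeffFun f p)‖ ^ 2) 1 := by
  have hK : N.totient ≠ 0 := (Nat.totient_pos.2 (Nat.pos_of_ne_zero (NeZero.ne N))).ne'
  obtain ⟨m, hm⟩ : ∃ m : ℕ, m = 12 * N.totient := ⟨_, rfl⟩
  have hχ : ∀ γ, nebChar N ε γ ^ m = 1 := by
    intro γ
    rw [hm, mul_comm, pow_mul, nebChar_pow, one_pow]
  have hf' : IsCh N 1 (nebChar N ε) f := (isNebC_iff_isCh ε).1 hf
  obtain ⟨χ', f', hχ', hf'', hq⟩ := exists_conj_one N m N.totient hm hK _ hχ f hf' s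
  have hc := coeffFun_conj_aux s hq
  obtain ⟨C, hC⟩ := exists_bound_one N m N.totient hm hK χ' hχ' f' hf''
  have hsum : ∀ z : ℍ, HasSum (fun n : ℕ => (fun n => s (coeffFun f n)) n *
      Complex.exp (2 * Real.pi * Complex.I * n * z)) (f' z) := by
    intro z
    have h := hasSum_qExpansion one_pos hf''.isQ.per hf''.isQ.holo hf''.isQ.bdd z
    have e : (fun n : ℕ => (fun n => s (coeffFun f n)) n *
        Complex.exp (2 * Real.pi * Complex.I * n * z)) =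
        fun m : ℕ => (qExpansion 1 f').coeff m • Function.Periodic.qParam (1 : ℝ) (z : ℂ) ^ m := by
      funext n
      have h2 : s (coeffFun f n) = (qExpansion 1 f').coeff n := (congrFun hc n).symm
      beta_reduce
      rw [h2, smul_eq_mul, Function.Periodic.qParam, ← Complex.exp_nat_mul]
      congr 2
      push_cast
      ring
    rw [e]
    exact h
  refine rankin N (fun n => s (coeffFun f n)) (fun p => s (ε (p : ZMod N))) ?_ ?_ ?_
    (C * Real.exp (4 * Real.pi)) (fun x hx => sum_sq_le f' _ hsum C hC x hx)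
  · intro p hp hpN n
    have h3 := congrArg s (hT p hp hpN n)
    rw [map_add, map_mul, map_mul] at h3
    rw [← h3]
    by_cases hpn : p ∣ n
    · rw [if_pos hpn, if_pos hpn]
    · rw [if_neg hpn, if_neg hpn, map_zero]
  · rw [h1, map_one]
  · intro p hp hpN
    have hu : IsUnit ((p : ℕ) : ZMod N) :=
      (ZMod.isUnit_iff_coprime p N).2 ((Nat.Prime.coprime_iff_not_dvd hp).2 hpN)
    refine Complex.norm_eq_one_of_pow_eq_one (n := N.totient) ?_ hK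
    rw [← map_pow, ← map_pow]
    obtain ⟨u, hu⟩ := hu
    rw [← hu, ← Units.val_pow_eq_pow_val, ← ZMod.card_units_eq_totient, pow_card_eq_one]
    simp

/-- **(I2)** -/
theorem ub_id (hf : IsNebC N 1 (etaOf ε) f) (h1 : coeffFun f 1 = 1)
    (hT : HeckeRel N (coeffFun f) (fun p => ε (p : ZMod N))) :
    UB (fun p => if p ∣ N then 0 else ‖coeffFun f p‖ ^ 2) 1 := by
  simpa using ub_conj ε hf h1 hT 1

open Classical in
/-- **(I3)** -/
theorem exists_Y (hf : IsNebC N 1 (etaOf ε) f) (h1 : coeffFun f 1 = 1)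
    (hT : HeckeRel N (coeffFun f) (fun p => ε (p : ZMod N)))
    (hint : ∀ p : ℕ, p.Prime → ¬ p ∣ N → IsIntegral ℤ (coeffFun f p)) (η' : ℝ) (hη : 0 < η') :
    ∃ Y : Finset ℂ, UB (fun p => if ¬ p ∣ N ∧ coeffFun f p ∉ Y then 1 else 0) η' := by
  obtain ⟨B, hB⟩ : ∃ B : Finset (ℕ → ℂ), ∀ b, b ∈ B ↔
      ∃ s : ℂ ≃ₐ[ℚ] ℂ, b = resP N (fun n => s (coeffFun f n)) :=
    ⟨(finite_systems ε hf h1 hT).toFinset, fun b => by rw [Set.Finite.mem_toFinset]; rfl⟩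
  have hB1 : resP N (fun n => coeffFun f n) ∈ B := (hB _).2 ⟨1, rfl⟩
  have hd : 0 < B.card := Finset.card_pos.2 ⟨_, hB1⟩
  have hdR : (0 : ℝ) < (B.card : ℝ) := by exact_mod_cast hd
  obtain ⟨c, hc⟩ : ∃ c : ℝ, c = (B.card : ℝ) / η' := ⟨_, rfl⟩
  have hc0 : 0 < c := by rw [hc]; positivity
  obtain ⟨Y, hY⟩ : ∃ Y : Finset ℂ, ∀ x, x ∈ Y ↔ (IsIntegral ℤ x ∧ ∃ O : Finset ℂ, O.card ≤ B.card ∧
      x ∈ O ∧ (∀ s : ℂ ≃ₐ[ℚ] ℂ, ∀ y ∈ O, s y ∈ O) ∧ ∀ y ∈ O, ‖y‖ ≤ Real.sqrt c) :=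
    ⟨(finite_small B.card (Real.sqrt c)).toFinset, fun b => by rw [Set.Finite.mem_toFinset]; rfl⟩
  have hUB : ∀ b ∈ B, ∃ C : ℝ, ∀ s : ℝ, 1 < s → s < 2 → ∀ F : Finset ℕ, (∀ p ∈ F, p.Prime) →
      ∑ p ∈ F, ‖b p‖ ^ 2 * (p : ℝ) ^ (-s) ≤ Lam s + C := by
    intro b hb
    obtain ⟨s₀, rfl⟩ := (hB b).1 hb
    obtain ⟨C, hC⟩ := ub_conj ε hf h1 hT s₀
    refine ⟨C, fun s hs hs2 F hF => ?_⟩
    have h2 := hC s hs hs2 F hF
    rw [one_mul] at h2
    refine le_trans (le_of_eq (Finset.sum_congr rfl fun p hp => ?_)) h2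
    beta_reduce
    by_cases hpN : p ∣ N
    · rw [if_pos hpN, resP, if_neg (fun h => h.2 hpN)]
      simp
    · rw [if_neg hpN, resP, if_pos ⟨hF p hp, hpN⟩]
  choose! Cb hCb using hUB
  have hpt : ∀ p : ℕ, p.Prime → (if ¬ p ∣ N ∧ coeffFun f p ∉ Y then (1 : ℝ) else 0) ≤
      c⁻¹ * ∑ b ∈ B, ‖b p‖ ^ 2 := by
    intro p hp
    have hnn : 0 ≤ c⁻¹ * ∑ b ∈ B, ‖b p‖ ^ 2 :=
      mul_nonneg (inv_nonneg.2 hc0.le) (Finset.sum_nonneg fun b _ => by positivity)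
    by_cases hcond : ¬ p ∣ N ∧ coeffFun f p ∉ Y
    · rw [if_pos hcond]
      obtain ⟨hpN, hnY⟩ := hcond
      have hex : ∃ b ∈ B, Real.sqrt c < ‖b p‖ := by
        by_contra hcon
        push Not at hcon
        apply hnY
        rw [hY]
        refine ⟨hint p hp hpN, B.image (fun b => b p), Finset.card_image_le, ?_, ?_, ?_⟩
        · refine Finset.mem_image.2 ⟨_, hB1, ?_⟩
          rw [resP, if_pos ⟨hp, hpN⟩]
        · intro s' y hy
          obtain ⟨b, hb, rfl⟩ := Finset.mem_image.1 hy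
          obtain ⟨s₀, rfl⟩ := (hB b).1 hb
          refine Finset.mem_image.2 ⟨_, (hB _).2 ⟨s' * s₀, rfl⟩, ?_⟩
          rw [resP, if_pos ⟨hp, hpN⟩, resP, if_pos ⟨hp, hpN⟩]
          rfl
        · intro y hy
          obtain ⟨b, hb, rfl⟩ := Finset.mem_image.1 hy
          exact hcon b hb
      obtain ⟨b, hb, hlt⟩ := hex
      have h2 : c < ‖b p‖ ^ 2 := by
        have := Real.sq_sqrt hc0.le
        rw [← this]
        exact pow_lt_pow_left₀ hlt (Real.sqrt_nonneg c) (by norm_num)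
      have h3 : ‖b p‖ ^ 2 ≤ ∑ b ∈ B, ‖b p‖ ^ 2 :=
        Finset.single_le_sum (f := fun b : ℕ → ℂ => ‖b p‖ ^ 2) (fun b _ => by positivity) hb
      rw [inv_mul_eq_div, le_div_iff₀ hc0, one_mul]
      linarith
    · rw [if_neg hcond]
      exact hnn
  refine ⟨Y, c⁻¹ * ∑ b ∈ B, Cb b, fun s hs hs2 F hF => ?_⟩
  calc ∑ p ∈ F, (if ¬ p ∣ N ∧ coeffFun f p ∉ Y then (1 : ℝ) else 0) * (p : ℝ) ^ (-s)
      ≤ ∑ p ∈ F, (c⁻¹ * ∑ b ∈ B, ‖b p‖ ^ 2) * (p : ℝ) ^ (-s) := by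
        refine Finset.sum_le_sum fun p hp => ?_
        exact mul_le_mul_of_nonneg_right (hpt p (hF p hp)) (by positivity)
    _ = c⁻¹ * ∑ b ∈ B, ∑ p ∈ F, ‖b p‖ ^ 2 * (p : ℝ) ^ (-s) := by
        rw [Finset.sum_comm, Finset.mul_sum]
        refine Finset.sum_congr rfl fun p _ => ?_
        rw [mul_assoc, Finset.sum_mul]
    _ ≤ c⁻¹ * ∑ b ∈ B, (Lam s + Cb b) := by
        refine mul_le_mul_of_nonneg_left ?_ (inv_nonneg.2 hc0.le)
        exact Finset.sum_le_sum fun b hb => hCb b hb s hs hs2 F hF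
    _ = η' * Lam s + c⁻¹ * ∑ b ∈ B, Cb b := by
        rw [Finset.sum_add_distrib, Finset.sum_const, nsmul_eq_mul, mul_add, hc]
        congr 1
        field_simp

end Fermat.Agent.S48
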