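import Fermat.Agent.S29.Echelon

/-!
# S48 / K-5a : echelon descent with a prescribed coordinate
[key S48/K-5a, ~200 lines; COPY of `S29/Echelon.lean` (`Aut.exists_rigid`, `Aut.exists_algebraic_mem`) with the index `i₀` prescribed]

`exists_rigid_at` : among the subspaces `V_Z = {g ∈ V | g = 0 on Z}` which contain an element with `g i₀ ≠ 0` take a minimal one (`V_∅ = V` qualifies).  Let `u ∈ V_Z`, `u i₀ = 1`.  If `g ∈ V_Z`, `g i₀ = 1`, `g ≠ u`, then
`w = g - u ∈ V_Z`, `w i₀ = 0`, `w i ≠ 0` for some `i`; `u' = u - (u i / w i) w ∈ V_{Z ∪ {i}}`, `u' i₀ = 1`, and `V_{Z ∪ {i}} < V_Z` (it does not contain `w`): contradiction with minimality.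
`exists_algebraic_mem_at` : word for word the proof of `Aut.exists_algebraic_mem`.
-/

set_option autoImplicit false

namespace Fermat.Agent.S48

theorem exists_rigid_at {L ι : Type*} [Field L] (V : Submodule L (ι → L)) [FiniteDimensional L V]
    (i₀ : ι) (hV : ∃ v ∈ V, v i₀ ≠ 0) :
    ∃ (f : ι → L) (Z : Set ι), f ∈ V ∧ (∀ i ∈ Z, f i = 0) ∧ f i₀ = 1 ∧
      ∀ g ∈ V, (∀ i ∈ Z, g i = 0) → g i₀ = 1 → g = f := by
  classical
  -- the subspaces `V_Z`
  let VZ : Set ι → Submodule L V := fun Z =>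
    { carrier := {g | ∀ i ∈ Z, (g : ι → L) i = 0}
      add_mem' := fun {a b} ha hb i hi => by
        show (a : ι → L) i + (b : ι → L) i = 0
        rw [ha i hi, hb i hi, add_zero]
      zero_mem' := fun i _ => rfl
      smul_mem' := fun c a ha i hi => by
        show c * (a : ι → L) i = 0
        rw [ha i hi, mul_zero] }
  let S : Set (Submodule L V) := {U | (∃ g ∈ U, (g : ι → L) i₀ ≠ 0) ∧ ∃ Z, U = VZ Z}
  have hS : S.Nonempty := by
    obtain ⟨v, hv, hv0⟩ := hV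
    exact ⟨VZ ∅, ⟨⟨v, hv⟩, fun i hi => absurd hi (Set.notMem_empty i), hv0⟩, ∅, rfl⟩
  obtain ⟨U, ⟨⟨f, hf, hi₀'⟩, Z, rfl⟩, hmin⟩ := (wellFounded_lt (α := Submodule L V)).has_min S hS
  -- the normalised element
  set u : V := ((f : ι → L) i₀)⁻¹ • f with hu
  have huZ : u ∈ VZ Z := (VZ Z).smul_mem _ hf
  have hu1 : (u : ι → L) i₀ = 1 := by
    show _ * (f : ι → L) i₀ = 1
    exact inv_mul_cancel₀ hi₀'
  refine ⟨(u : ι → L), Z, u.2, huZ, hu1, ?_⟩
  intro g hg hgZ hg1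
  by_contra hne
  -- `w = g - u`
  set w : V := ⟨g, hg⟩ - u with hw
  have hwZ : w ∈ VZ Z := (VZ Z).sub_mem (show (⟨g, hg⟩ : V) ∈ VZ Z from hgZ) huZ
  have hw0 : (w : ι → L) i₀ = 0 := by
    show g i₀ - (u : ι → L) i₀ = 0
    rw [hg1, hu1, sub_self]
  have hwne : (w : ι → L) ≠ 0 := by
    intro h
    apply hne
    funext i
    have := congrFun h i
    exact sub_eq_zero.1 this
  obtain ⟨i, hi⟩ := Function.ne_iff.mp hwne
  have hi' : (w : ι → L) i ≠ 0 := hi
  set u' : V := u - ((u : ι → L) i / (w : ι → L) i) • w with hu'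
  have hu'Z : u' ∈ VZ (insert i Z) := by
    intro j hj
    show (u : ι → L) j - ((u : ι → L) i / (w : ι → L) i) * (w : ι → L) j = 0
    rcases Set.mem_insert_iff.mp hj with rfl | hj
    · rw [div_mul_cancel₀ _ hi', sub_self]
    · rw [huZ j hj, hwZ j hj, mul_zero, sub_zero]
  have hu'1 : (u' : ι → L) i₀ ≠ 0 := by
    have : (u' : ι → L) i₀ = 1 := by
      show (u : ι → L) i₀ - ((u : ι → L) i / (w : ι → L) i) * (w : ι → L) i₀ = 1
      rw [hu1, hw0, mul_zero, sub_zero]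
    rw [this]
    exact one_ne_zero
  apply hmin (VZ (insert i Z)) ⟨⟨u', hu'Z, hu'1⟩, _, rfl⟩
  refine lt_of_le_of_ne (fun x hx j hj => hx j (Set.mem_insert_of_mem _ hj)) ?_
  intro h
  have : w ∈ VZ (insert i Z) := h ▸ hwZ
  exact hi' (this i (Set.mem_insert _ _))

theorem exists_algebraic_mem_at {K L ι : Type*} [Field K] [CharZero K] [Field L] [Algebra K L]
    [IsAlgClosed L] (V : Submodule L (ι → L)) [FiniteDimensional L V] (i₀ : ι)
    (hV : ∃ v ∈ V, v i₀ ≠ 0)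
    (hfin : (Set.range fun σ : L ≃ₐ[K] L =>
      (fun f : ι → L => fun i => σ (f i)) '' (V : Set (ι → L))).Finite) :
    ∃ f ∈ V, f i₀ = 1 ∧ ∀ i, IsAlgebraic K (f i) := by
  classical
  obtain ⟨f, Z, hfV, hfZ, hf1, huniq⟩ := exists_rigid_at V i₀ hV
  refine ⟨f, hfV, hf1, ?_⟩
  intro i
  apply S29.Aut.isAlgebraic_of_finite_orbit
  -- `σ (f i)` only depends on `σ(V)`
  have key : ∀ σ τ : L ≃ₐ[K] L,
      (fun f : ι → L => fun i => σ (f i)) '' (V : Set (ι → L)) =
        (fun f : ι → L => fun i => τ (f i)) '' (V : Set (ι → L)) → σ (f i) = τ (f i) := by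
    intro σ τ h
    have h1 : (fun i => σ (f i)) ∈ (fun f : ι → L => fun i => τ (f i)) '' (V : Set (ι → L)) :=
      h ▸ ⟨f, hfV, rfl⟩
    obtain ⟨g, hg, hgf⟩ := h1
    have hgi : ∀ i, τ (g i) = σ (f i) := fun i => congrFun hgf i
    have : g = f := by
      apply huniq g hg
      · intro j hj
        have := hgi j
        rw [hfZ j hj, map_zero] at this
        exact (map_eq_zero τ).mp this
      · have := hgi i₀
        rw [hf1, map_one] at this
        exact (map_eq_one_iff τ τ.injective).mp this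
    rw [← hgi i, this]
  let Φ : Set (ι → L) → L := fun S =>
    if h : ∃ σ : L ≃ₐ[K] L, (fun f : ι → L => fun i => σ (f i)) '' (V : Set (ι → L)) = S
    then h.choose (f i) else 0
  apply (hfin.image Φ).subset
  rintro _ ⟨σ, rfl⟩
  refine ⟨_, ⟨σ, rfl⟩, ?_⟩
  have h : ∃ σ' : L ≃ₐ[K] L, (fun f : ι → L => fun i => σ' (f i)) '' (V : Set (ι → L)) =
      (fun f : ι → L => fun i => σ (f i)) '' (V : Set (ι → L)) := ⟨σ, rfl⟩
  have h2 : Φ ((fun f : ι → L => fun i => σ (f i)) '' (V : Set (ι → L))) = h.choose (f i) :=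
    dif_pos h
  rw [h2]
  exact key _ _ h.choose_spec

end Fermat.Agent.S48
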