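import Fermat.Agent.S48.K.Systems
import Fermat.Agent.S48.K.EchAbs

/-!
# S48 / K-5b : a form with ALGEBRAIC coefficients in the eigenspace of `f`
[key S48/K-5b, ~400 lines]   (the `f` of S48 may have transcendental coefficients `a_n`, `gcd(n,N) > 1`)

`eigSpace N χ e lam = {v ∈ VV N 1 χ | ∀ p prime, p ∤ N, ∀ n, v (p n) + e p [p ∣ n] v (n/p) = lam p v n}`.
* `exists_map_VV_one` : COPY of `S29.map_VV_le_aux` + `S29.exists_map_VV` (`S29/DOrbit.lean`) with weight `1`, using `exists_conj_one`.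
* `image_eigSpace` : `s '' eigSpace N χ e lam = eigSpace N χ' (s ∘ e) (s ∘ lam)` where `s '' VV N 1 χ = VV N 1 χ'` (apply `s`, resp. `s⁻¹`, to the relations).
* `eigSpace` depends only on `resP N e`, `resP N lam`.
* `exists_algebraic_eigen` : `V = eigSpace N (nebChar N ε) e a`, `e p = ε p`, `a = coeffFun f`; `a ∈ V`, `a 1 = 1`; finite dimensional (submodule of `VV N 1 χ`, `finiteDimensional_VV_one`, `m = 12 φ(N)`); the conjugates of `V` are among the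
  `eigSpace N χ' e' b` with `χ'` in `finite_chars`, `resP N e'` in a finite set (values of `s ∘ ε`, see K-3), `resP N b` in `finite_systems`: finite.  `exists_algebraic_mem_at` with `i₀ = 1`: `v ∈ V`, `v 1 = 1`, algebraic.
  `v = coeffFun f''`, `IsCh N 1 (nebChar N ε) f''`, `isNebC_iff_isCh`.  The relation with `n = 1` gives `v p = a p`, so `HeckeRel N v e`.
-/

set_option autoImplicit false

open UpperHalfPlane ModularForm ModularFormClass ModularCurve CongruenceSubgroup Fermat.Agent.S24 Fermat.Agent.S29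
open scoped MatrixGroups Manifold

noncomputable section

namespace Fermat.Agent.S48

/-- the eigenspace -/
def eigSpace (N : ℕ) (χ : Gamma0 N →* ℂˣ) (e lam : ℕ → ℂ) : Submodule ℂ (ℕ → ℂ) where
  carrier := {v | v ∈ VV N 1 χ ∧ ∀ p : ℕ, p.Prime → ¬ p ∣ N → ∀ n : ℕ,
    v (p * n) + e p * (if p ∣ n then v (n / p) else 0) = lam p * v n}
  add_mem' := by
    rintro a b ⟨ha, ha'⟩ ⟨hb, hb'⟩
    refine ⟨add_mem ha hb, fun p hp hpN n => ?_⟩
    have h1 := ha' p hp hpN n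
    have h2 := hb' p hp hpN n
    simp only [Pi.add_apply]
    split_ifs at h1 h2 ⊢ <;> linear_combination h1 + h2
  zero_mem' := ⟨zero_mem _, fun p _ _ n => by simp⟩
  smul_mem' := by
    rintro c a ⟨ha, ha'⟩
    refine ⟨Submodule.smul_mem _ c ha, fun p hp hpN n => ?_⟩
    have h1 := ha' p hp hpN n
    simp only [Pi.smul_apply, smul_eq_mul]
    split_ifs at h1 ⊢ <;> linear_combination c * h1

theorem k5b_map_VV_le (N : ℕ) [NeZero N] (m K : ℕ) (hm : m = 12 * K) (hK : K ≠ 0)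
    (χ : Gamma0 N →* ℂˣ) (hχ : ∀ γ, χ γ ^ m = 1) (h0 : VV N 1 χ ≠ ⊥) (s : ℂ ≃ₐ[ℚ] ℂ) :
    ∃ χ' : Gamma0 N →* ℂˣ, (∀ γ, χ' γ ^ m = 1) ∧
      ∀ v ∈ VV N 1 χ, (fun i => s (v i)) ∈ VV N 1 χ' := by
  obtain ⟨v₀, ⟨f₀, hf₀, rfl⟩, hv₀⟩ := (Submodule.ne_bot_iff _).mp h0
  obtain ⟨χ', f₀', hχ', hf₀', hq₀⟩ := exists_conj_one N m K hm hK χ hχ f₀ hf₀ s
  have hc₀ := coeffFun_conj_aux s hq₀
  have hf₀'0 : f₀' ≠ 0 := by
    rintro rfl
    apply hv₀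
    funext i
    have := congrFun hc₀ i
    rw [coeffFun_zero] at this
    exact (map_eq_zero s).mp this.symm
  refine ⟨χ', hχ', ?_⟩
  rintro _ ⟨f, hf, rfl⟩
  obtain ⟨χ₁, g₁, -, hg₁, hq₁⟩ := exists_conj_one N m K hm hK χ hχ f hf s
  obtain ⟨χ₂, g₂, -, hg₂, hq₂⟩ := exists_conj_one N m K hm hK χ hχ (f + f₀) (hf.add hf₀) s
  have hc₁ := coeffFun_conj_aux s hq₁
  have hc₂ := coeffFun_conj_aux s hq₂
  rw [← hc₁]
  suffices h : IsCh N 1 χ' g₁ from ⟨g₁, h, rfl⟩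
  have hsum : g₂ = g₁ + f₀' := by
    apply coeffFun_injective hg₂.isQ (hg₁.isQ.add hf₀'.isQ)
    rw [coeffFun_add hg₁.isQ hf₀'.isQ, hc₁, hc₂, hc₀, coeffFun_add hf.isQ hf₀.isQ]
    funext i
    exact map_add s _ _
  have hrel : ∀ γ : Gamma0 N, (((χ₁ γ : ℂˣ) : ℂ) - ((χ₂ γ : ℂˣ) : ℂ)) • g₁ =
      (((χ₂ γ : ℂˣ) : ℂ) - ((χ' γ : ℂˣ) : ℂ)) • f₀' := by
    intro γ
    have h1 := hg₂.slash γ
    rw [hsum, SlashAction.add_slash, hg₁.slash γ, hf₀'.slash γ, smul_add] at h1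
    rw [sub_smul, sub_smul, sub_eq_sub_iff_add_eq_add, h1, add_comm]
  by_cases hall : ∀ γ : Gamma0 N, ((χ₁ γ : ℂˣ) : ℂ) = ((χ₂ γ : ℂˣ) : ℂ)
  · have : χ₁ = χ' := by
      ext γ
      have h1 := hrel γ
      rw [hall γ, sub_self, zero_smul] at h1
      rcases smul_eq_zero.mp h1.symm with h2 | h2
      · rw [hall γ]; exact sub_eq_zero.mp h2
      · exact absurd h2 hf₀'0
    rw [← this]; exact hg₁
  · push Not at hall
    obtain ⟨γ, hγ⟩ := hall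
    have hne : ((χ₁ γ : ℂˣ) : ℂ) - ((χ₂ γ : ℂˣ) : ℂ) ≠ 0 := sub_ne_zero.mpr hγ
    have : g₁ = ((((χ₁ γ : ℂˣ) : ℂ) - ((χ₂ γ : ℂˣ) : ℂ))⁻¹ *
        (((χ₂ γ : ℂˣ) : ℂ) - ((χ' γ : ℂˣ) : ℂ))) • f₀' := by
      rw [mul_smul, ← hrel γ, smul_smul, inv_mul_cancel₀ hne, one_smul]
    rw [this]
    exact hf₀'.smul _

theorem exists_map_VV_one (N : ℕ) [NeZero N] (m K : ℕ) (hm : m = 12 * K) (hK : K ≠ 0)
    (χ : Gamma0 N →* ℂˣ) (hχ : ∀ γ, χ γ ^ m = 1) (h0 : VV N 1 χ ≠ ⊥) (s : ℂ ≃ₐ[ℚ] ℂ) :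
    ∃ χ' : Gamma0 N →* ℂˣ, (∀ γ, χ' γ ^ m = 1) ∧
      (fun (v : ℕ → ℂ) i => s (v i)) '' (VV N 1 χ : Set (ℕ → ℂ)) = VV N 1 χ' := by
  obtain ⟨χ', hχ', hle⟩ := k5b_map_VV_le N m K hm hK χ hχ h0 s
  obtain ⟨v₀, hv₀m, hv₀⟩ := (Submodule.ne_bot_iff _).mp h0
  have h0' : VV N 1 χ' ≠ ⊥ := by
    rw [Submodule.ne_bot_iff]
    refine ⟨_, hle v₀ hv₀m, ?_⟩
    intro h
    apply hv₀
    funext i
    exact (map_eq_zero s).mp (congrFun h i)
  obtain ⟨χ'', hχ'', hle'⟩ := k5b_map_VV_le N m K hm hK χ' hχ' h0' s.symm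
  have hχeq : χ = χ'' := by
    have h1 := hle' _ (hle v₀ hv₀m)
    simp only [AlgEquiv.symm_apply_apply] at h1
    obtain ⟨f, hf, hfv⟩ := hv₀m
    obtain ⟨g, hg, hgv⟩ := h1
    have hfg : f = g := coeffFun_injective hf.isQ hg.isQ (hfv.trans hgv.symm)
    subst hfg
    apply hf.char_unique hg
    rintro rfl
    exact hv₀ (hfv.symm.trans coeffFun_zero)
  refine ⟨χ', hχ', Set.Subset.antisymm ?_ ?_⟩
  · rintro _ ⟨v, hv, rfl⟩
    exact hle v hv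
  · intro w hw
    refine ⟨fun i => s.symm (w i), ?_, ?_⟩
    · rw [hχeq]; exact hle' w hw
    · funext i
      exact s.apply_symm_apply _

theorem k5b_eigSpace_resP (N : ℕ) (χ : Gamma0 N →* ℂˣ) (e lam : ℕ → ℂ) :
    eigSpace N χ e (resP N lam) = eigSpace N χ e lam := by
  ext v
  refine and_congr_right fun _ => forall_congr' fun p => forall_congr' fun hp =>
    forall_congr' fun hpN => ?_
  rw [resP, if_pos ⟨hp, hpN⟩]

theorem k5b_image_eigSpace (N : ℕ) (χ χ' : Gamma0 N →* ℂˣ) (e lam : ℕ → ℂ) (s : ℂ ≃ₐ[ℚ] ℂ)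
    (h : (fun (v : ℕ → ℂ) i => s (v i)) '' (VV N 1 χ : Set (ℕ → ℂ)) = VV N 1 χ') :
    (fun (v : ℕ → ℂ) i => s (v i)) '' (eigSpace N χ e lam : Set (ℕ → ℂ)) =
      eigSpace N χ' (fun p => s (e p)) (fun p => s (lam p)) := by
  have key : ∀ (v : ℕ → ℂ) (p n : ℕ),
      s (v (p * n) + e p * (if p ∣ n then v (n / p) else 0)) =
        s (v (p * n)) + s (e p) * (if p ∣ n then s (v (n / p)) else 0) := by
    intro v p n
    rw [map_add, map_mul]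
    by_cases hpn : p ∣ n
    · rw [if_pos hpn, if_pos hpn]
    · rw [if_neg hpn, if_neg hpn, map_zero]
  apply Set.Subset.antisymm
  · rintro _ ⟨v, ⟨hv, hv'⟩, rfl⟩
    refine ⟨?_, fun p hp hpN n => ?_⟩
    · have : (fun i => s (v i)) ∈ (VV N 1 χ' : Set (ℕ → ℂ)) := h ▸ ⟨v, hv, rfl⟩
      exact this
    · change s (v (p * n)) + s (e p) * (if p ∣ n then s (v (n / p)) else 0) = s (lam p) * s (v n)
      rw [← key, hv' p hp hpN n, map_mul]
  · rintro w ⟨hw, hw'⟩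
    have hw2 : w ∈ (fun (v : ℕ → ℂ) i => s (v i)) '' (VV N 1 χ : Set (ℕ → ℂ)) := h ▸ hw
    obtain ⟨v, hv, rfl⟩ := hw2
    refine ⟨v, ⟨hv, fun p hp hpN n => ?_⟩, rfl⟩
    apply s.injective
    rw [key, map_mul]
    exact hw' p hp hpN n

variable {N : ℕ} [NeZero N] (ε : DirichletCharacter ℂ N) {f : ℍ → ℂ}

theorem exists_algebraic_eigen (hf : IsNebC N 1 (etaOf ε) f) (h1 : coeffFun f 1 = 1)
    (hT : HeckeRel N (coeffFun f) (fun p => ε (p : ZMod N))) :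
    ∃ f' : ℍ → ℂ, IsNebC N 1 (etaOf ε) f' ∧ coeffFun f' 1 = 1 ∧
      HeckeRel N (coeffFun f') (fun p => ε (p : ZMod N)) ∧
      (∀ p : ℕ, p.Prime → ¬ p ∣ N → coeffFun f' p = coeffFun f p) ∧
      ∀ n, IsAlgebraic ℚ (coeffFun f' n) := by
  classical
  have hK : N.totient ≠ 0 := (Nat.totient_pos.2 (Nat.pos_of_ne_zero (NeZero.ne N))).ne'
  obtain ⟨m, hm⟩ : ∃ m : ℕ, m = 12 * N.totient := ⟨_, rfl⟩
  have hm0 : m ≠ 0 := by rw [hm]; exact mul_ne_zero (by norm_num) hK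
  have hχ : ∀ γ, nebChar N ε γ ^ m = 1 := by
    intro γ
    rw [hm, mul_comm, pow_mul, nebChar_pow, one_pow]
  have hf' : IsCh N 1 (nebChar N ε) f := (isNebC_iff_isCh ε).1 hf
  set V := eigSpace N (nebChar N ε) (fun p => ε (p : ZMod N)) (coeffFun f) with hV
  have haVV : coeffFun f ∈ VV N 1 (nebChar N ε) := ⟨f, hf', rfl⟩
  have haV : coeffFun f ∈ V := ⟨haVV, hT⟩
  have h0 : VV N 1 (nebChar N ε) ≠ ⊥ := by
    rw [Submodule.ne_bot_iff]
    refine ⟨_, haVV, fun h => ?_⟩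
    have := congrFun h 1
    rw [h1] at this
    exact one_ne_zero this
  have hfdVV := finiteDimensional_VV_one N m N.totient hm hK _ hχ
  have hle : V ≤ VV N 1 (nebChar N ε) := fun v hv => hv.1
  have hfd : FiniteDimensional ℂ V := Submodule.finiteDimensional_of_le hle
  have hfin : (Set.range fun σ : ℂ ≃ₐ[ℚ] ℂ =>
      (fun f : ℕ → ℂ => fun i => σ (f i)) '' (V : Set (ℕ → ℂ))).Finite := by
    have hA := finite_chars N m hm0
    have hB := sysAux_finite_eps ε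
    have hC := finite_systems ε hf h1 hT
    refine (((hA.prod (hB.prod hC))).image (fun t : (Gamma0 N →* ℂˣ) × (ZMod N → ℂ) × (ℕ → ℂ) =>
      (eigSpace N t.1 (fun p => t.2.1 (p : ZMod N)) t.2.2 : Set (ℕ → ℂ)))).subset ?_
    rintro _ ⟨σ, rfl⟩
    obtain ⟨χ', hχ', he⟩ := exists_map_VV_one N m N.totient hm hK _ hχ h0 σ
    refine ⟨(χ', fun d => σ (ε d), resP N fun n => σ (coeffFun f n)),
      ⟨hχ', ⟨σ, rfl⟩, ⟨σ, rfl⟩⟩, ?_⟩
    change (eigSpace N χ' (fun p => σ (ε (p : ZMod N))) (resP N fun n => σ (coeffFun f n)) :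
      Set (ℕ → ℂ)) = _
    rw [k5b_eigSpace_resP, hV]
    exact (k5b_image_eigSpace N _ χ' _ _ σ he).symm
  obtain ⟨v, hvV, hv1, halg⟩ := exists_algebraic_mem_at (K := ℚ) V 1
    ⟨_, haV, by rw [h1]; exact one_ne_zero⟩ hfin
  obtain ⟨⟨f'', hf'', rfl⟩, hrel⟩ := hvV
  have hp : ∀ p : ℕ, p.Prime → ¬ p ∣ N → coeffFun f'' p = coeffFun f p := by
    intro p hp hpN
    have h2 := hrel p hp hpN 1
    rw [mul_one, if_neg (fun h => hp.one_lt.ne' (Nat.dvd_one.1 h)), mul_zero, add_zero, hv1,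
      mul_one] at h2
    exact h2
  refine ⟨f'', (isNebC_iff_isCh ε).2 hf'', hv1, ?_, hp, halg⟩
  intro p hpp hpN n
  rw [hp p hpp hpN]
  exact hrel p hpp hpN n

end Fermat.Agent.S48
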