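import Fermat.Agent.S48.K.Bdd
import Fermat.Agent.S48.K.Ech
import Fermat.Agent.S48.R.Euler
import Fermat.Agent.S48.R.Local

/-!
# S48 / K-5d : the eigenvalues `a_p` are algebraic integers  (interface (I1))
[key S48/K-5d-i `isIntegral_of_rec` (~250 lines, Mathlib only), key S48/K-5d-ii `isIntegral_coeff` (~100)]

* `isIntegral_of_rec` : `b 0 = 1`, `b 1 = x`, `b (k+2) = x b (k+1) - e b k`, `e` integral, `x` algebraic, `D b k` integral for all `k`, `D ≠ 0`.  Then `x` is integral.
  (1) `x ^ k = ∑_{j ≤ k} r_{k,j} b j` with `r_{k,j} ∈ ℤ[e]` (induction: `x b 0 = b 1`, `x b (j+1) = b (j+2) + e b j`), so `D x ^ k` is integral for all `k`.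
  (2) `K = ℚ⟮x⟯ ⊆ ℂ` is a number field; `D x^k ∈ K` integral, so it lies in the image `O` of `𝓞 K`, a finitely generated `ℤ`-module; `ℤ[x] ⊆ D⁻¹ O` is a submodule of a noetherian `ℤ`-module, hence f.g.; so `x` is integral
      (`IsIntegral.of_mem_of_fg` / `isIntegral_of_noetherian`-type lemma for the subalgebra `Algebra.adjoin ℤ {x}`).
      [Alternative without number fields: `IntStruct.rat_isInt_of_mul_pow` applied to the coefficients of `minpoly ℚ x`.]
* `isIntegral_coeff` : `f'` from `exists_algebraic_eigen`, `D` from `exists_den`, `b k = coeffFun f' (p ^ k)`, `HeckeRel.rec`, `e = ε p` integral (root of unity or `0`), `x = a p`.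
-/

set_option autoImplicit false

open UpperHalfPlane ModularForm ModularFormClass ModularCurve CongruenceSubgroup Fermat.Agent.S24 Fermat.Agent.S29
open scoped MatrixGroups Manifold

noncomputable section

namespace Fermat.Agent.S48

theorem intAux_of_pow (x : ℂ) (hx : IsAlgebraic ℚ x) (D : ℕ) (hD : D ≠ 0)
    (h : ∀ k : ℕ, IsIntegral ℤ ((D : ℂ) * x ^ k)) : IsIntegral ℤ x := by
  let K : IntermediateField ℚ ℂ := IntermediateField.adjoin ℚ {x}
  have hfd : FiniteDimensional ℚ K := IntermediateField.adjoin.finiteDimensional hx.isIntegral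
  have hnf : NumberField K := { to_charZero := inferInstance, to_finiteDimensional := hfd }
  let φ : NumberField.RingOfIntegers K →ₗ[ℤ] ℂ := ((algebraMap K ℂ).comp (algebraMap (NumberField.RingOfIntegers K) K)).toIntAlgHom.toLinearMap
  have hφ : ∀ y : NumberField.RingOfIntegers K, φ y = algebraMap K ℂ (algebraMap (NumberField.RingOfIntegers K) K y) := fun y => rfl
  have hM : (LinearMap.range φ).FG := by
    rw [LinearMap.range_eq_map]
    exact (Module.Finite.fg_top (R := ℤ) (M := NumberField.RingOfIntegers K)).map φ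
  have hnoeth : IsNoetherian ℤ (LinearMap.range φ) := isNoetherian_of_fg_of_noetherian _ hM
  have hxK : x ∈ K := IntermediateField.mem_adjoin_simple_self ℚ x
  have hpow : ∀ k : ℕ, (D : ℂ) * x ^ k ∈ LinearMap.range φ := by
    intro k
    let z : K := (D : K) * (⟨x, hxK⟩ : K) ^ k
    have hz : algebraMap K ℂ z = (D : ℂ) * x ^ k := by
      simp only [z, map_mul, map_natCast, map_pow]
      rfl
    have hzi : IsIntegral ℤ z := by
      rw [← isIntegral_algebraMap_iff (algebraMap K ℂ).injective, hz]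
      exact h k
    refine ⟨IsIntegralClosure.mk' (NumberField.RingOfIntegers K) z hzi, ?_⟩
    rw [hφ, IsIntegralClosure.algebraMap_mk', hz]
  let S : Subalgebra ℤ ℂ := Algebra.adjoin ℤ {x}
  let μ : ℂ →ₗ[ℤ] ℂ := LinearMap.lsmul ℤ ℂ (D : ℤ)
  have hμ : ∀ y, μ y = (D : ℂ) * y := fun y => by simp [μ]
  have hμinj : Function.Injective μ := by
    intro y y' hy
    rw [hμ, hμ] at hy
    exact mul_left_cancel₀ (Nat.cast_ne_zero.2 hD) hy
  have hle : (Subalgebra.toSubmodule S).map μ ≤ LinearMap.range φ := by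
    rintro _ ⟨y, hy, rfl⟩
    have hy' : y ∈ Algebra.adjoin ℤ {x} := hy
    rw [Algebra.adjoin_singleton_eq_range_aeval] at hy'
    obtain ⟨P, rfl⟩ := hy'
    rw [hμ]
    change (D : ℂ) * Polynomial.aeval x P ∈ _
    rw [Polynomial.aeval_eq_sum_range, Finset.mul_sum]
    refine Submodule.sum_mem _ fun i _ => ?_
    rw [mul_smul_comm]
    exact Submodule.smul_mem _ _ (hpow i)
  have hfg : (Subalgebra.toSubmodule S).FG :=
    Submodule.fg_of_fg_map_injective μ hμinj ((isNoetherian_submodule.1 hnoeth) _ hle)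
  exact IsIntegral.of_mem_of_fg S hfg x (Algebra.subset_adjoin rfl)

theorem intAux_locF (e : ℂ) (he : IsIntegral ℤ e) (k : ℕ) : ∀ m, IsIntegral ℤ (locF e k m) := by
  induction k with
  | zero =>
    intro m
    rw [locF_zero]
    split_ifs
    · exact isIntegral_one
    · exact isIntegral_zero
  | succ k ih =>
    intro m
    rw [locF_succ]
    refine IsIntegral.add ?_ (he.mul (ih _))
    split_ifs
    · exact isIntegral_zero
    · exact ih _

theorem isIntegral_of_rec (x e : ℂ) (he : IsIntegral ℤ e) (hx : IsAlgebraic ℚ x) (b : ℕ → ℂ)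
    (h0 : b 0 = 1) (h1 : b 1 = x) (hrec : ∀ k, b (k + 2) = x * b (k + 1) - e * b k)
    (D : ℕ) (hD : D ≠ 0) (hint : ∀ k, IsIntegral ℤ ((D : ℂ) * b k)) : IsIntegral ℤ x := by
  refine intAux_of_pow x hx D hD fun k => ?_
  rw [locF_pow x e b h0 h1 hrec k, Finset.mul_sum]
  refine IsIntegral.sum _ fun m _ => ?_
  rw [mul_left_comm]
  exact (intAux_locF e he k m).mul (hint m)

theorem intAux_eps {N : ℕ} [NeZero N] (ε : DirichletCharacter ℂ N) (x : ZMod N) :
    IsIntegral ℤ (ε x) := by
  by_cases hx : IsUnit x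
  · obtain ⟨u, rfl⟩ := hx
    refine IsIntegral.of_pow (Nat.totient_pos.2 (Nat.pos_of_ne_zero (NeZero.ne N))) ?_
    rw [← map_pow, ← Units.val_pow_eq_pow_val, ZMod.pow_totient, Units.val_one, map_one]
    exact isIntegral_one
  · rw [MulChar.map_nonunit ε hx]
    exact isIntegral_zero

/-- **(I1)** -/
theorem isIntegral_coeff {N : ℕ} [NeZero N] (ε : DirichletCharacter ℂ N) (hε : ε (-1) = -1) {f : ℍ → ℂ}
    (hf : IsNebC N 1 (etaOf ε) f) (h1 : coeffFun f 1 = 1)
    (hT : HeckeRel N (coeffFun f) (fun p => ε (p : ZMod N))) (p : ℕ) (hp : p.Prime) (hpN : ¬ p ∣ N) :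
    IsIntegral ℤ (coeffFun f p) := by
  obtain ⟨f', hf', h1', hT', hpp, halg⟩ := exists_algebraic_eigen ε hf h1 hT
  obtain ⟨D, hD, hint⟩ := exists_den ε hε hf' halg
  rw [← hpp p hp hpN]
  exact isIntegral_of_rec (coeffFun f' p) (ε (p : ZMod N)) (intAux_eps ε _) (halg p)
    (fun k => coeffFun f' (p ^ k)) (by simpa using h1') (by simp) (fun k => hT'.rec hp hpN k) D hD
    (fun k => hint _)

end Fermat.Agent.S48
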