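import Fermat.Agent.S48.K.EstarStub
import Fermat.Agent.S48.H.Basic
import Fermat.Agent.IntStruct.RatSpan

/-!
# S48 / K-5c : bounded denominators
[key S48/K-5c-i `exists_den_cuspForm` (~300 lines), key S48/K-5c-ii `div_series` (~150, Mathlib only), key S48/K-5c-iii `exists_den` (~200)]

* `exists_den_cuspForm` : `G ∈ S_k(Γ₀(M))` with algebraic coefficients has bounded denominators.  `IntStruct.span_rat_eq_top` / `exists_int_smul_of_rat` / `hasIntegralStructure` (file `IntStruct/RatSpan.lean`): `S_k(Γ₀ M)` is spanned over `ℂ` by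
  forms `G_1, …, G_r` with coefficients in `ℤ`; take them linearly independent; their coefficient vectors are independent (`coeffMap` injective), so there are indices `n_1, …, n_r` with `det (G_i(n_j)) ≠ 0` (rational matrix;
  e.g. `Matrix.rank`/`exists … linearIndependent` of finitely many coordinates, or induction).  `G = ∑ x_i G_i`, `x = (G(n_j)) · (matrix)⁻¹` is algebraic.  `D_i x_i` integral (`exists_integral_multiple`), `D = ∏ D_i`.
* `div_series` : `E = q (1 + …)`, `E, P ∈ R[[q]]` for a subring `R` of `ℂ` (here `R = ℤ̄`, stated with `IsIntegral ℤ`), `P = F E` in `ℂ[[q]]`  ⟹  `F ∈ R[[q]]`:  `F_n = P_{n+1} - ∑_{i<n} F_i E_{n+1-i}` (strong induction).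
* `exists_den` : `ψ = ε⁻¹` is odd; `E`, `r` from `exists_Estar`; `f' * E` is `IsNebC (N r) 2 (ε ε⁻¹)` (`IsNebC.mono`, `IsNebC.mul`), so `S20.IsCF (Gamma0 (N r)) 2` (`isCF_Gamma0`, `etaOf_mul_inv`), bundle it (`S20.IsCF.toCuspForm`);
  coefficients `= ` Cauchy products (`qExpansion_mul`), algebraic; `D (f' E)` integral; `div_series` for `D f'`.
-/

set_option autoImplicit false

open UpperHalfPlane ModularForm ModularFormClass ModularCurve CongruenceSubgroup Fermat.Agent.S24 Fermat.Agent.S29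
open scoped MatrixGroups Manifold

noncomputable section

namespace Fermat.Agent.S48

/-- bounded denominators -/
def BDz (u : ℕ → ℂ) : Prop := ∃ D : ℤ, D ≠ 0 ∧ ∀ n, IsIntegral ℤ ((D : ℂ) * u n)

theorem bdzAux_intCast (D : ℤ) : IsIntegral ℤ (D : ℂ) := by
  have := isIntegral_algebraMap (R := ℤ) (A := ℂ) (x := D)
  simpa using this

theorem BDz.zero : BDz 0 := ⟨1, one_ne_zero, fun n => by simpa using isIntegral_zero⟩

theorem BDz.add {u u' : ℕ → ℂ} (h : BDz u) (h' : BDz u') : BDz (u + u') := by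
  obtain ⟨D, hD, hi⟩ := h
  obtain ⟨D', hD', hi'⟩ := h'
  refine ⟨D * D', mul_ne_zero hD hD', fun n => ?_⟩
  have : ((D * D' : ℤ) : ℂ) * (u + u') n = (D' : ℂ) * ((D : ℂ) * u n) + (D : ℂ) * ((D' : ℂ) * u' n) := by
    push_cast
    simp only [Pi.add_apply]
    ring
  rw [this]
  exact ((bdzAux_intCast D').mul (hi n)).add ((bdzAux_intCast D).mul (hi' n))

theorem BDz.smul {u : ℕ → ℂ} (h : BDz u) {y : ℂ} (hy : IsAlgebraic ℚ y) : BDz (y • u) := by
  obtain ⟨D, hD, hi⟩ := h
  have hy' : IsAlgebraic ℤ y := (IsFractionRing.isAlgebraic_iff ℤ ℚ ℂ).2 hy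
  obtain ⟨E, hE, hEi⟩ := hy'.exists_integral_multiple
  refine ⟨E * D, mul_ne_zero hE hD, fun n => ?_⟩
  have : ((E * D : ℤ) : ℂ) * (y • u) n = (E • y) * ((D : ℂ) * u n) := by
    push_cast
    simp only [Pi.smul_apply, smul_eq_mul, zsmul_eq_mul]
    ring
  rw [this]
  exact hEi.mul (hi n)

theorem bdzAux_exists_proj : ∃ π : ℂ →ₗ[ℚ] ℂ, (∀ x, IsAlgebraic ℚ (π x)) ∧
    ∀ x, IsAlgebraic ℚ x → π x = x := by
  let A : Submodule ℚ ℂ := Subalgebra.toSubmodule (algebraicClosure ℚ ℂ).toSubalgebra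
  have hA : ∀ x, x ∈ A ↔ IsAlgebraic ℚ x := fun x => mem_algebraicClosure_iff
  obtain ⟨g, hg⟩ := LinearMap.exists_leftInverse_of_injective A.subtype (Submodule.ker_subtype A)
  refine ⟨A.subtype ∘ₗ g, fun x => (hA _).1 (g x).2, fun x hx => ?_⟩
  have h1 := LinearMap.congr_fun hg ⟨x, (hA x).2 hx⟩
  simp only [LinearMap.comp_apply, Submodule.subtype_apply, LinearMap.id_apply] at h1 ⊢
  rw [h1]

theorem exists_den_cuspForm (M : ℕ) [NeZero M] (k : ℤ) (G : CuspForm (Gamma0 M) k)
    (halg : ∀ n, IsAlgebraic ℚ ((qExpansion 1 G).coeff n)) :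
    ∃ D : ℕ, D ≠ 0 ∧ ∀ n, IsIntegral ℤ ((D : ℂ) * (qExpansion 1 G).coeff n) := by
  obtain ⟨π, hπ1, hπ2⟩ := bdzAux_exists_proj
  have key : ∀ v : CuspForm (Gamma0 M) k, ∀ x : ℂ,
      BDz (fun n => π (x * IntStruct.coeffMap M k v n)) := by
    intro v
    have hv : v ∈ Submodule.span ℂ {f : CuspForm (Gamma0 M) k |
        ∀ n, ∃ r : ℚ, (qExpansion 1 f).coeff n = (r : ℂ)} := by
      rw [IntStruct.span_rat_eq_top]; trivial
    induction hv using Submodule.span_induction with
    | mem g hg =>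
      intro x
      obtain ⟨D, hD, hm⟩ := IntStruct.exists_int_smul_of_rat M g hg
      have h1 : BDz (IntStruct.coeffMap M k g) := by
        refine ⟨D, hD, fun n => ?_⟩
        obtain ⟨m, hm'⟩ := hm n
        rw [IntStruct.coeffMap_apply, hm']
        exact bdzAux_intCast m
      have h2 : (fun n => π (x * IntStruct.coeffMap M k g n)) = π x • IntStruct.coeffMap M k g := by
        funext n
        obtain ⟨r, hr⟩ := hg n
        rw [Pi.smul_apply, IntStruct.coeffMap_apply, hr, smul_eq_mul, mul_comm x, mul_comm (π x),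
          ← Rat.smul_def, ← Rat.smul_def, map_smul]
      rw [h2]
      exact h1.smul (hπ1 x)
    | zero =>
      intro x
      have : (fun n => π (x * IntStruct.coeffMap M k 0 n)) = 0 := by
        funext n
        simp
      rw [this]
      exact BDz.zero
    | add v w _ _ ihv ihw =>
      intro x
      have : (fun n => π (x * IntStruct.coeffMap M k (v + w) n))
          = (fun n => π (x * IntStruct.coeffMap M k v n))
            + fun n => π (x * IntStruct.coeffMap M k w n) := by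
        funext n
        simp [mul_add]
      rw [this]
      exact (ihv x).add (ihw x)
    | smul a v _ ih =>
      intro x
      have : (fun n => π (x * IntStruct.coeffMap M k (a • v) n))
          = fun n => π ((x * a) * IntStruct.coeffMap M k v n) := by
        funext n
        simp [mul_assoc]
      rw [this]
      exact ih (x * a)
  obtain ⟨D, hD, hi⟩ := key G 1
  refine ⟨D.natAbs, Int.natAbs_ne_zero.2 hD, fun n => ?_⟩
  have h1 := hi n
  simp only [one_mul] at h1
  rw [IntStruct.coeffMap_apply, hπ2 _ (halg n)] at h1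
  rcases Int.natAbs_eq D with h | h
  · have : ((D.natAbs : ℕ) : ℂ) = (D : ℂ) := by
      conv_rhs => rw [h]
      simp
    rw [this]; exact h1
  · have : ((D.natAbs : ℕ) : ℂ) = -(D : ℂ) := by
      conv_rhs => rw [h]
      simp
    rw [this, neg_mul]; exact h1.neg

theorem div_series (E F P : PowerSeries ℂ) (hE0 : E.coeff 0 = 0) (hE1 : E.coeff 1 = 1)
    (hE : ∀ n, IsIntegral ℤ (E.coeff n)) (hP : ∀ n, IsIntegral ℤ (P.coeff n)) (h : P = F * E) :
    ∀ n, IsIntegral ℤ (F.coeff n) := by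
  intro n
  induction n using Nat.strong_induction_on with
  | _ n ih =>
    have h1 : P.coeff (n + 1) = ∑ k ∈ Finset.range n, F.coeff k * E.coeff (n + 1 - k) + F.coeff n := by
      rw [h, PowerSeries.coeff_mul,
        Finset.Nat.sum_antidiagonal_eq_sum_range_succ (fun i j => F.coeff i * E.coeff j) (n + 1),
        Finset.sum_range_succ, Finset.sum_range_succ, Nat.sub_self, hE0, mul_zero, add_zero,
        Nat.add_sub_cancel_left, hE1, mul_one]
    have h2 : F.coeff n = P.coeff (n + 1) - ∑ k ∈ Finset.range n, F.coeff k * E.coeff (n + 1 - k) := by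
      rw [h1]; ring
    rw [h2]
    exact (hP _).sub (IsIntegral.sum _ fun k hk => (ih k (Finset.mem_range.1 hk)).mul (hE _))

theorem exists_den {N : ℕ} [NeZero N] (ε : DirichletCharacter ℂ N) (hε : ε (-1) = -1) {f' : ℍ → ℂ}
    (hf : IsNebC N 1 (etaOf ε) f') (halg : ∀ n, IsAlgebraic ℚ (coeffFun f' n)) :
    ∃ D : ℕ, D ≠ 0 ∧ ∀ n, IsIntegral ℤ ((D : ℂ) * coeffFun f' n) := by
  have hψ : (ε⁻¹ : DirichletCharacter ℂ N) (-1) = -1 := by
    rw [MulChar.inv_apply_eq_inv', hε]
    norm_num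
  obtain ⟨r, E, hr, hE, hE0, hE1, hEint⟩ := exists_Estar N ε⁻¹ hψ
  have hNr : NeZero (N * r) := ⟨mul_ne_zero (NeZero.ne N) (by omega)⟩
  have hg := (hf.mono (Dvd.intro r rfl : N ∣ N * r)).mul hE
  have hcf : S20.IsCF (Gamma0 (N * r)) (1 + 1) (f' * E) :=
    hg.isCF_Gamma0 (fun γ hγ => etaOf_mul_inv (Dvd.intro r rfl) ε γ hγ)
  have hq : qExpansion 1 hcf.toCuspForm = qExpansion 1 f' * qExpansion 1 E :=
    qExpansion_mul hf.isQ.analytic hE.isQ.analytic
  have halgG : ∀ n, IsAlgebraic ℚ ((qExpansion 1 hcf.toCuspForm).coeff n) := by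
    intro n
    rw [hq, PowerSeries.coeff_mul, isAlgebraic_iff_isIntegral]
    refine IsIntegral.sum _ fun x _ => ?_
    exact (isAlgebraic_iff_isIntegral.1 (halg x.1)).mul (hEint x.2).tower_top
  obtain ⟨D, hD, hDint⟩ := exists_den_cuspForm (N * r) (1 + 1) hcf.toCuspForm halgG
  refine ⟨D, hD, fun n => ?_⟩
  have h := div_series (qExpansion 1 E) (PowerSeries.C (D : ℂ) * qExpansion 1 f')
    (PowerSeries.C (D : ℂ) * qExpansion 1 hcf.toCuspForm) hE0 hE1 hEint
    (fun n => by rw [PowerSeries.coeff_C_mul]; exact hDint n) (by rw [hq, mul_assoc]) n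
  rwa [PowerSeries.coeff_C_mul] at h

end Fermat.Agent.S48
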