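import Fermat.Agent.S48.H.Basic
import Fermat.Agent.S29.DConj

/-!
# S48 / K-1 : weight one forms with character: conjugates, bound, finite dimension
[keys S48/K-1a `exists_conj_one` (~120 lines), S48/K-1b `exists_bound_one` (~200), S48/K-1c `finiteDimensional_VV_one` (~80)]

`χ : Gamma0 N →* ℂˣ`, `χ ^ m = 1`, `m = 12 K`, `K ≠ 0`.

* `exists_conj_one` : COPY of `S29.exists_conj` (file `S29/DConj.lean`) with weight `1` instead of `12 n`: `G = f ^ m` is a cusp form of weight `m * 1 = 12 * K` on `Γ₀(N)`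
  (`IsCh.isCF_pow`), `φ` its conjugate (`IntStruct.exists_cuspForm_map`), `dvd_ord_conj N m K s G φ`, `ES.exists_root`, `exists_char N hm 1 a`, `isQ_of_pow`.
* `exists_bound_one` : `G = f ^ m` is a cusp form of weight `m` on `Γ₀(N)`: `‖G z‖ * (im z)^(m/2) ≤ C'` (Mathlib `NumberTheory/ModularForms/Bounds.lean` / `Petersson.lean`:
  `CuspFormClass.exists_bound`, `CuspFormClass.petersson_bounded…`; take what exists).  `(‖f z‖² im z)^(m/2) = ‖G z‖ (im z)^(m/2)`, i.e. `(‖f z‖² im z)^(6K) ≤ C'`; so `‖f z‖² im z ≤ max 1 C'`.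
* `finiteDimensional_VV_one` : COPY of `S29.finiteDimensional_VV` (`S29/DOrbit.lean`) with `B = K * card (QN N) + 1` (truncate; `f ^ m` has weight `12 K` and vanishes to order `≥ B m > K card`… adapt the inequality:
  `X ^ (B m) ∣ qexp (f ^ m)` and `B m ≥ K * card + 1`).
-/

set_option autoImplicit false

open UpperHalfPlane ModularForm ModularFormClass ModularCurve CongruenceSubgroup Fermat.Agent.S24 Fermat.Agent.S29
open scoped MatrixGroups Manifold

noncomputable section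

namespace Fermat.Agent.S48

variable (N : ℕ) [NeZero N] (m K : ℕ) (hm : m = 12 * K) (hK : K ≠ 0) (χ : Gamma0 N →* ℂˣ)
  (hχ : ∀ γ, χ γ ^ m = 1)

include hm hK hχ

theorem exists_conj_one (f : ℍ → ℂ) (hf : IsCh N 1 χ f) (s : ℂ ≃ₐ[ℚ] ℂ) :
    ∃ (χ' : Gamma0 N →* ℂˣ) (f' : ℍ → ℂ), (∀ γ, χ' γ ^ m = 1) ∧ IsCh N 1 χ' f' ∧
      qExpansion 1 f' = (qExpansion 1 f).map (s : ℂ →+* ℂ) := by
  have hm0 : m ≠ 0 := by rw [hm]; exact mul_ne_zero (by norm_num) hK
  by_cases hf0 : f = 0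
  · refine ⟨χ, 0, hχ, IsCh.zero_fun, ?_⟩
    rw [hf0, qExpansion_zero, map_zero]
  have e : (m : ℤ) * 1 = 12 * ((K : ℕ) : ℤ) := by rw [hm]; push_cast; ring
  have hG0 : S20.IsCF (Gamma0 N) (12 * ((K : ℕ) : ℤ)) (f ^ m) :=
    (hf.isCF_pow hm0 hχ).weight_cast e
  set G : CuspForm (Gamma0 N : Subgroup (GL (Fin 2) ℝ)) (12 * ((K : ℕ) : ℤ)) :=
    hG0.toCuspForm with hG
  have hGf : (G : ℍ → ℂ) = f ^ m := rfl
  obtain ⟨φ, hφ⟩ := IntStruct.exists_cuspForm_map N (s : ℂ →+* ℂ) G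
  have hGord : ∀ z : ℍ, (m : ℕ∞) ∣ analyticOrderAt ((G : ℍ → ℂ) ∘ ofComplex) (z : ℂ) := by
    intro z
    have han : AnalyticAt ℂ (f ∘ ofComplex) (z : ℂ) :=
      (UpperHalfPlane.mdifferentiable_iff.mp hf.isQ.holo).analyticAt
        (UpperHalfPlane.isOpen_upperHalfPlaneSet.mem_nhds z.im_pos)
    have : (G : ℍ → ℂ) ∘ ofComplex = (f ∘ ofComplex) ^ m := by
      rw [hGf]; rfl
    rw [this, analyticOrderAt_pow han]
    exact ⟨analyticOrderAt (f ∘ ofComplex) (z : ℂ), by simp⟩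
  have hφord := dvd_ord_conj N m K s G φ hφ hGord
  obtain ⟨a, ha, ham⟩ := ES.exists_root m hm0 φ φ.holo' hφord
  have hqG : qExpansion 1 (G : ℍ → ℂ) = qExpansion 1 f ^ m := by
    rw [hGf, qExpansion_pow_of_isQ hf.isQ]
  have ha0 : a ≠ 0 := by
    rintro rfl
    rw [zero_pow hm0] at ham
    have h1 : qExpansion 1 (φ : ℍ → ℂ) = 0 := by rw [← ham]; exact qExpansion_zero 1
    rw [hφ, hqG, map_pow] at h1
    have h2 : (qExpansion 1 f).map (s : ℂ →+* ℂ) = 0 := pow_eq_zero_iff hm0 |>.mp h1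
    have h3 : qExpansion 1 f = 0 := by
      have hinj : Function.Injective (PowerSeries.map (s : ℂ →+* ℂ)) :=
        PowerSeries.map_injective _ (RingHom.injective _)
      exact hinj (by rw [h2, map_zero])
    exact hf0 (hf.isQ.eq_zero_of_qExpansion h3)
  have hcf : S20.IsCF (Gamma0 N) ((m : ℤ) * 1) (a ^ m) := by
    rw [ham]
    exact (S20.isCF_of_cuspForm φ).weight_cast e.symm
  obtain ⟨χ', hχ', hsl, hz⟩ := exists_char N hm0 1 a ha ha0 hcf
  have hq : IsQ (a ^ m) := by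
    rw [ham]
    exact ⟨φ.holo', SlashInvariantFormClass.periodic_comp_ofComplex φ
      (CongruenceSubgroup.one_mem_strictPeriods_Gamma0 N), (CuspFormClass.zero_at_infty φ).boundedAtFilter⟩
  obtain ⟨ζ, hζ, hQa, hqa⟩ := isQ_of_pow hm0 a ha hq ((qExpansion 1 f).map (s : ℂ →+* ℂ)) (by
    rw [ham, hφ, hqG, map_pow])
  have hζ0 : ζ ≠ 0 := by
    rintro rfl
    rw [zero_pow hm0] at hζ
    exact zero_ne_one hζ
  refine ⟨χ', ζ⁻¹ • a, hχ', IsCh.smul ζ⁻¹ ⟨hQa, hsl, hz⟩, ?_⟩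
  rw [qExpansion_smul hQa.analytic, hqa, smul_smul, inv_mul_cancel₀ hζ0, one_smul]

theorem exists_bound_one (f : ℍ → ℂ) (hf : IsCh N 1 χ f) :
    ∃ C : ℝ, ∀ z : ℍ, ‖f z‖ ^ 2 * z.im ≤ C := by
  have hm0 : m ≠ 0 := by rw [hm]; exact mul_ne_zero (by norm_num) hK
  have e : (m : ℤ) * 1 = 12 * ((K : ℕ) : ℤ) := by rw [hm]; push_cast; ring
  have hG0 : S20.IsCF (Gamma0 N) (12 * ((K : ℕ) : ℤ)) (f ^ m) :=
    (hf.isCF_pow hm0 hχ).weight_cast e
  set G : CuspForm (Gamma0 N : Subgroup (GL (Fin 2) ℝ)) (12 * ((K : ℕ) : ℤ)) :=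
    hG0.toCuspForm with hG
  have hGf : (G : ℍ → ℂ) = f ^ m := rfl
  obtain ⟨C, hC⟩ := CuspFormClass.exists_bound G
  refine ⟨max 1 C, fun z => ?_⟩
  have h1 := hC z
  have him : 0 < z.im := z.im_pos
  have e2 : (((12 * ((K : ℕ) : ℤ) : ℤ) : ℝ) / 2) = ((6 * K : ℕ) : ℝ) := by push_cast; ring
  rw [e2, Real.rpow_natCast, le_div_iff₀ (pow_pos him _)] at h1
  have h2 : ‖G z‖ = ‖f z‖ ^ m := by
    have : G z = f z ^ m := congrFun hGf z
    rw [this, norm_pow]
  rw [h2] at h1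
  have h3 : (‖f z‖ ^ 2 * z.im) ^ (6 * K) ≤ C := by
    rw [mul_pow, ← pow_mul]
    have : 2 * (6 * K) = m := by rw [hm]; ring
    rw [this]
    exact h1
  by_cases hx : ‖f z‖ ^ 2 * z.im ≤ 1
  · exact hx.trans (le_max_left _ _)
  · push Not at hx
    refine le_trans ?_ (le_max_right _ _)
    refine le_trans ?_ h3
    exact le_self_pow₀ hx.le (by omega)

theorem finiteDimensional_VV_one : FiniteDimensional ℂ (VV N 1 χ) := by
  have hm0 : m ≠ 0 := by rw [hm]; exact mul_ne_zero (by norm_num) hK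
  set B : ℕ := K * Nat.card (QN N) + 1 with hB
  let tr : VV N 1 χ →ₗ[ℂ] (Fin B → ℂ) :=
    { toFun := fun v i => v.1 i
      map_add' := fun _ _ => rfl
      map_smul' := fun _ _ => rfl }
  have hinj : Function.Injective tr := by
    rw [← LinearMap.ker_eq_bot, LinearMap.ker_eq_bot']
    rintro ⟨v, f, hf, rfl⟩ hv
    have hdvd : (PowerSeries.X : PowerSeries ℂ) ^ B ∣ qExpansion 1 f := by
      rw [PowerSeries.X_pow_dvd_iff]
      intro i hi
      exact congrFun hv ⟨i, hi⟩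
    have hdvd2 : (PowerSeries.X : PowerSeries ℂ) ^ (B * m) ∣ qExpansion 1 (f ^ m) := by
      rw [(isQ_pow_aux hf.isQ m).2, pow_mul]
      exact pow_dvd_pow_of_dvd hdvd m
    have hw : (m : ℤ) * 1 = 12 * ((K : ℕ) : ℤ) := by rw [hm]; push_cast; ring
    let F : ModularForm (Gamma0 N : Subgroup (GL (Fin 2) ℝ)) (12 * ((K : ℕ) : ℤ)) :=
      ((hf.isCF_pow hm0 hχ).isMF.weight_cast hw).toModularForm
    have hF : F = 0 := by
      apply coeffMap_injective N K
      rw [map_zero]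
      funext i
      show (qExpansion 1 (f ^ m)).coeff (i : ℕ) = 0
      rw [PowerSeries.X_pow_dvd_iff] at hdvd2
      apply hdvd2
      have hi := i.2
      have hm1 : 1 ≤ m := Nat.one_le_iff_ne_zero.mpr hm0
      calc (i : ℕ) < K * Nat.card (QN N) + 1 := hi
        _ = B * 1 := by rw [hB, mul_one]
        _ ≤ B * m := Nat.mul_le_mul_left _ hm1
    have hfm : f ^ m = 0 := congrArg (fun G : ModularForm _ _ => (G : ℍ → ℂ)) hF
    have hf0 : f = 0 := by
      funext z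
      have := congrFun hfm z
      exact pow_eq_zero_iff hm0 |>.mp this
    apply Subtype.ext
    show coeffFun f = 0
    rw [hf0, coeffFun_zero]
  exact FiniteDimensional.of_injective tr hinj

end Fermat.Agent.S48
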