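import Fermat.Agent.S48.W.Scale

/-!
# S48 : the form `E* = q + …` (weight one, nebentypus `ψ`, integral coefficients), as consumed by layer K.   Proved in `S48/W/Scale.lean` from the interface `exists_Epsi` of layer Z.
-/

set_option autoImplicit false

open UpperHalfPlane Fermat.Agent.S29

namespace Fermat.Agent.S48

theorem exists_Estar (N : ℕ) [NeZero N] (ψ : DirichletCharacter ℂ N) (hψ : ψ (-1) = -1) :
    ∃ (r : ℕ) (E : ℍ → ℂ), 1 < r ∧ IsNeb (N * r) 1 (etaOf ψ) E ∧ coeffFun E 0 = 0 ∧ coeffFun E 1 = 1 ∧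
      ∀ n, IsIntegral ℤ (coeffFun E n) :=
  exists_Estar' N ψ hψ

end Fermat.Agent.S48
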