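import Mathlib

/-!
# S48 / K-2 : finitely many eigensystems in a finite dimensional subspace
[key S48/K-2, Mathlib only, ~150 lines]

`T i : E → E` linear maps (NOT assumed to commute nor to preserve `V`).  Nonzero simultaneous eigenvectors with pairwise distinct eigensystems are linearly independent:
take a shortest nontrivial relation `∑ c_r v_r = 0` among eigenvectors with distinct systems `λ_r`; pick `i` with `λ_1 i ≠ λ_2 i`, apply `T i - λ_1 i`: a shorter nontrivial relation.
(Or: induction on a `Finset` of systems.)  Hence every finite set of eigensystems occurring in `V` has at most `finrank V` elements (`LinearIndependent.fintype_card_le_finrank` in `V`), so the set is finite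
(`Set.finite_of_forall_finset_card_le`-type argument: an infinite set contains finite subsets of any size, `Set.Infinite.exists_subset_card_eq`).
-/

set_option autoImplicit false

namespace Fermat.Agent.S48

/-- simultaneous eigenvectors with pairwise distinct eigensystems are linearly independent -/
theorem eigensystems_indep_aux {F E ι : Type*} [Field F] [AddCommGroup E] [Module F E]
    (T : ι → E →ₗ[F] E) (v : (ι → F) → E) (S : Finset (ι → F))
    (hv : ∀ lam ∈ S, v lam ≠ 0 ∧ ∀ i, T i (v lam) = lam i • v lam) :
    ∀ c : (ι → F) → F, ∑ lam ∈ S, c lam • v lam = 0 → ∀ lam ∈ S, c lam = 0 := by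
  classical
  induction S using Finset.induction_on with
  | empty => intro c _ lam h; simp at h
  | insert μ S hμ ih =>
    intro c hc
    have hv' : ∀ lam ∈ S, v lam ≠ 0 ∧ ∀ i, T i (v lam) = lam i • v lam :=
      fun lam h => hv lam (Finset.mem_insert_of_mem h)
    rw [Finset.sum_insert hμ] at hc
    have h1 : ∀ i, ∀ lam ∈ S, c lam * (lam i - μ i) = 0 := by
      intro i
      refine ih hv' (fun lam => c lam * (lam i - μ i)) ?_
      have h2 := congrArg (T i) hc
      rw [map_add, map_smul, map_sum, map_zero, (hv μ (Finset.mem_insert_self μ S)).2 i] at h2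
      have h3 : ∑ lam ∈ S, T i (c lam • v lam) = ∑ lam ∈ S, (c lam * lam i) • v lam :=
        Finset.sum_congr rfl fun lam h => by rw [map_smul, (hv' lam h).2 i, smul_smul]
      rw [h3] at h2
      have h4 : ∑ lam ∈ S, (c lam * (lam i - μ i)) • v lam =
          ∑ lam ∈ S, (c lam * lam i) • v lam - μ i • ∑ lam ∈ S, c lam • v lam := by
        rw [Finset.smul_sum, ← Finset.sum_sub_distrib]
        refine Finset.sum_congr rfl fun lam _ => ?_
        rw [smul_smul, ← sub_smul]
        congr 1
        ring
      rw [h4, eq_neg_of_add_eq_zero_right h2, eq_neg_of_add_eq_zero_right hc, smul_neg, smul_smul,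
        smul_smul, mul_comm]
      abel
    have h5 : ∀ lam ∈ S, c lam = 0 := by
      intro lam h
      have hne : lam ≠ μ := fun e => hμ (e ▸ h)
      obtain ⟨i, hi⟩ := Function.ne_iff.1 hne
      exact (mul_eq_zero.1 (h1 i lam h)).resolve_right (sub_ne_zero.2 hi)
    have h6 : ∑ lam ∈ S, c lam • v lam = 0 :=
      Finset.sum_eq_zero fun lam h => by rw [h5 lam h, zero_smul]
    rw [h6, add_zero] at hc
    intro lam h
    rcases Finset.mem_insert.1 h with rfl | h
    · exact (smul_eq_zero.1 hc).resolve_right (hv _ (Finset.mem_insert_self _ S)).1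
    · exact h5 lam h

theorem finite_eigensystems {F E ι : Type*} [Field F] [AddCommGroup E] [Module F E] (T : ι → E →ₗ[F] E)
    (V : Submodule F E) [FiniteDimensional F V] :
    {lam : ι → F | ∃ v ∈ V, v ≠ 0 ∧ ∀ i, T i v = lam i • v}.Finite := by
  classical
  by_contra hinf
  obtain ⟨S, hS, hcard⟩ := Set.Infinite.exists_subset_card_eq hinf (Module.finrank F V + 1)
  choose! v hvV hv0 hvT using
    (fun (lam : ι → F) (h : lam ∈ {lam : ι → F | ∃ v ∈ V, v ≠ 0 ∧ ∀ i, T i v = lam i • v}) => h)
  have hmem : ∀ lam ∈ S, lam ∈ {lam : ι → F | ∃ v ∈ V, v ≠ 0 ∧ ∀ i, T i v = lam i • v} :=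
    fun lam h => hS h
  have hind := eigensystems_indep_aux T v S fun lam h => ⟨hv0 lam (hmem lam h), hvT lam (hmem lam h)⟩
  have hli : LinearIndependent F (fun lam : S => (⟨v lam, hvV _ (hmem _ lam.2)⟩ : V)) := by
    rw [linearIndependent_iff']
    intro s g hg lam _
    have h1 := congrArg (Submodule.subtype V) hg
    rw [map_sum, map_zero] at h1
    have h2 : ∑ lam ∈ S, (if h : lam ∈ S then (if (⟨lam, h⟩ : S) ∈ s then g ⟨lam, h⟩ else 0) else 0) • v lam
        = 0 := by
      rw [← Finset.sum_coe_sort S]
      rw [← h1, ← Finset.sum_filter_add_sum_filter_not Finset.univ (fun x : S => x ∈ s)]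
      have e1 : ∑ x ∈ Finset.univ.filter (fun x : S => ¬ x ∈ s),
          (if h : (x : ι → F) ∈ S then (if (⟨x, h⟩ : S) ∈ s then g ⟨x, h⟩ else 0) else 0) • v x = 0 := by
        refine Finset.sum_eq_zero fun x hx => ?_
        rw [Finset.mem_filter] at hx
        rw [dif_pos x.2, if_neg hx.2, zero_smul]
      rw [e1, add_zero]
      have e2 : Finset.univ.filter (fun x : S => x ∈ s) = s := by
        ext x; simp
      rw [e2]
      refine Finset.sum_congr rfl fun x hx => ?_
      rw [dif_pos x.2, if_pos hx]
      rfl
    have h3 := hind _ h2 lam lam.2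
    rw [dif_pos lam.2] at h3
    by_cases hl : lam ∈ s
    · rwa [if_pos hl] at h3
    · exact absurd ‹lam ∈ s› hl
  have := hli.fintype_card_le_finrank
  rw [Fintype.card_coe, hcard] at this
  omega

end Fermat.Agent.S48
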