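import Fermat.Agent.S48.K.Conj
import Fermat.Agent.S48.K.Indep

/-!
# S48 / K-3 : the conjugates of the eigensystem `(a_p)` form a finite set; `a_p` is algebraic
[key S48/K-3, ~350 lines, from the stubs `exists_conj_one`, `finiteDimensional_VV_one`, `finite_eigensystems`, and `S29.finite_chars`, `S29.Aut.isAlgebraic_of_finite_orbit_complex`]

`f` : `IsNebC N 1 (etaOf ε) f`, `a = coeffFun f`, `a 1 = 1`, `HeckeRel N a (fun p => ε p)`.   `m = 12 * N.totient`, `K = N.totient` (`nebChar_pow`).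
For `s ∈ Aut ℂ`: `v_s = s ∘ a ∈ VV N 1 χ_s` for some `χ_s` with `χ_s ^ m = 1` (`exists_conj_one`, `coeffFun_conj_aux`), `v_s 1 = 1`, and `HeckeRel N v_s (s ∘ e)`, `e p = ε p`.
* the pair `(χ_s, s ∘ e)` takes finitely many values: `finite_chars`; `s ∘ e = fun p => (s ∘ ε) (p : ZMod N)` and `s ∘ ε : ZMod N → ℂ` takes values in the finite set `{0} ∪ μ_{φ(N)}` (`Set.Finite.pi`/`Finite (ZMod N → _)`).
* for fixed `(χ', e')`: formal operators on `E = ℕ → ℂ` indexed by `ι = ℕ`: `(T p v) n = v (p n) + e' p [p ∣ n] v (n/p)` if `p` is a prime not dividing `N`, `T p = 0` otherwise.  `v_s` is an eigenvector with system `resP N v_s`.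
  `finite_eigensystems` with `V = VV N 1 χ'`.
* finite union of finite sets (`Set.Finite.biUnion`, or map to the product).
`isAlgebraic_coeff` : the orbit `{s (a p)}` is the image of the finite set of systems under evaluation at `p`.
-/

set_option autoImplicit false

open UpperHalfPlane ModularForm ModularFormClass ModularCurve CongruenceSubgroup Fermat.Agent.S24 Fermat.Agent.S29
open scoped MatrixGroups Manifold

noncomputable section

namespace Fermat.Agent.S48

open Classical in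
/-- restriction of a sequence to the primes not dividing `N` -/
def resP (N : ℕ) (b : ℕ → ℂ) : ℕ → ℂ := fun p => if p.Prime ∧ ¬ p ∣ N then b p else 0

open Classical in
/-- the formal Hecke operator on sequences -/
def sysOp (c : ℂ) (p : ℕ) : (ℕ → ℂ) →ₗ[ℂ] (ℕ → ℂ) where
  toFun v n := v (p * n) + c * (if p ∣ n then v (n / p) else 0)
  map_add' v w := by
    funext n
    by_cases h : p ∣ n
    · simp only [Pi.add_apply, if_pos h]; ring
    · simp only [Pi.add_apply, if_neg h]; ring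
  map_smul' r v := by
    funext n
    by_cases h : p ∣ n
    · simp only [Pi.smul_apply, if_pos h, smul_eq_mul, RingHom.id_apply]; ring
    · simp only [Pi.smul_apply, if_neg h, smul_eq_mul, RingHom.id_apply]; ring

open Classical in
/-- the family of operators attached to `e'` -/
def sysT (N : ℕ) (e' : ZMod N → ℂ) (p : ℕ) : (ℕ → ℂ) →ₗ[ℂ] (ℕ → ℂ) :=
  if p.Prime ∧ ¬ p ∣ N then sysOp (e' (p : ZMod N)) p else 0

variable {N : ℕ} [NeZero N] (ε : DirichletCharacter ℂ N) {f : ℍ → ℂ}

theorem sysAux_finite_eps :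
    {e' : ZMod N → ℂ | ∃ s : ℂ ≃ₐ[ℚ] ℂ, e' = fun d => s (ε d)}.Finite := by
  classical
  have hφ : 0 < N.totient := Nat.totient_pos.2 (Nat.pos_of_ne_zero (NeZero.ne N))
  have hR : ({0} ∪ {x : ℂ | x ^ N.totient = 1} : Set ℂ).Finite := by
    refine (Set.finite_singleton 0).union ?_
    have h2 : (Polynomial.X ^ N.totient - 1 : Polynomial ℂ) ≠ 0 :=
      Polynomial.X_pow_sub_C_ne_zero hφ 1
    refine ((Polynomial.X ^ N.totient - 1 : Polynomial ℂ).roots.toFinset.finite_toSet).subset ?_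
    intro y hy
    simp only [Finset.mem_coe, Multiset.mem_toFinset]
    rw [Polynomial.mem_roots h2]
    simp only [Polynomial.IsRoot, Polynomial.eval_sub, Polynomial.eval_pow, Polynomial.eval_X,
      Polynomial.eval_one]
    rw [hy, sub_self]
  refine (Set.Finite.pi' (fun _ : ZMod N => hR)).subset ?_
  rintro _ ⟨s, rfl⟩ d
  by_cases hd : IsUnit d
  · right
    change (s (ε d)) ^ N.totient = 1
    rw [← map_pow, ← map_pow]
    obtain ⟨u, rfl⟩ := hd
    rw [← Units.val_pow_eq_pow_val, ← ZMod.card_units_eq_totient, pow_card_eq_one]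
    simp
  · left
    change s (ε d) = 0
    rw [MulChar.map_nonunit _ hd, map_zero]

theorem finite_systems (hf : IsNebC N 1 (etaOf ε) f) (h1 : coeffFun f 1 = 1)
    (hT : HeckeRel N (coeffFun f) (fun p => ε (p : ZMod N))) :
    {b : ℕ → ℂ | ∃ s : ℂ ≃ₐ[ℚ] ℂ, b = resP N (fun n => s (coeffFun f n))}.Finite := by
  classical
  have hK : N.totient ≠ 0 := (Nat.totient_pos.2 (Nat.pos_of_ne_zero (NeZero.ne N))).ne'
  obtain ⟨m, hm⟩ : ∃ m : ℕ, m = 12 * N.totient := ⟨_, rfl⟩
  have hm0 : m ≠ 0 := by rw [hm]; exact mul_ne_zero (by norm_num) hK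
  have hχ : ∀ γ, nebChar N ε γ ^ m = 1 := by
    intro γ
    rw [hm, mul_comm, pow_mul, nebChar_pow, one_pow]
  have hf' : IsCh N 1 (nebChar N ε) f := (isNebC_iff_isCh ε).1 hf
  have hA := finite_chars N m hm0
  have hB := sysAux_finite_eps ε
  have hS : ∀ χ' ∈ {χ : Gamma0 N →* ℂˣ | ∀ γ, χ γ ^ m = 1}, ∀ e' : ZMod N → ℂ,
      {lam : ℕ → ℂ | ∃ v ∈ VV N 1 χ', v ≠ 0 ∧ ∀ i, sysT N e' i v = lam i • v}.Finite := by
    intro χ' hχ' e'
    have := finiteDimensional_VV_one N m N.totient hm hK χ' hχ'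
    exact finite_eigensystems (sysT N e') (VV N 1 χ')
  refine (hA.biUnion fun χ' hχ' => hB.biUnion fun e' _ => hS χ' hχ' e').subset ?_
  rintro _ ⟨s, rfl⟩
  obtain ⟨χ', f', hχ', hf'', hq⟩ := exists_conj_one N m N.totient hm hK _ hχ f hf' s
  have hc := coeffFun_conj_aux s hq
  simp only [Set.mem_iUnion]
  refine ⟨χ', hχ', fun d => s (ε d), ⟨s, rfl⟩, fun n => s (coeffFun f n), ⟨f', hf'', hc⟩, ?_, ?_⟩
  · intro h0
    have := congrFun h0 1
    simp only [h1, map_one, Pi.zero_apply] at this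
    exact one_ne_zero this
  · intro p
    by_cases hp : p.Prime ∧ ¬ p ∣ N
    · rw [sysT, if_pos hp, resP, if_pos hp]
      funext n
      have h2 := hT p hp.1 hp.2 n
      have h3 := congrArg s h2
      rw [map_add, map_mul, map_mul] at h3
      change s (coeffFun f (p * n)) + s (ε (p : ZMod N)) * (if p ∣ n then s (coeffFun f (n / p)) else 0)
        = s (coeffFun f p) * s (coeffFun f n)
      rw [← h3]
      by_cases hpn : p ∣ n
      · rw [if_pos hpn, if_pos hpn]
      · rw [if_neg hpn, if_neg hpn, map_zero]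
    · rw [sysT, if_neg hp, resP, if_neg hp, zero_smul]
      rfl

theorem isAlgebraic_coeff (hf : IsNebC N 1 (etaOf ε) f) (h1 : coeffFun f 1 = 1)
    (hT : HeckeRel N (coeffFun f) (fun p => ε (p : ZMod N))) (p : ℕ) (hp : p.Prime) (hpN : ¬ p ∣ N) :
    IsAlgebraic ℚ (coeffFun f p) := by
  classical
  apply Aut.isAlgebraic_of_finite_orbit
  refine ((finite_systems ε hf h1 hT).image (fun b => b p)).subset ?_
  rintro _ ⟨s, rfl⟩
  refine ⟨_, ⟨s, rfl⟩, ?_⟩
  change resP N (fun n => s (coeffFun f n)) p = s (coeffFun f p)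
  rw [resP, if_pos ⟨hp, hpN⟩]

end Fermat.Agent.S48
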